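import Fermat.Agent.LT.A2.H276.WeylTheta

/-!
# Row LT, tower A2, leaf A2.03.1.4 `WX467.WeylC` (helper276), OFF-MAIN: the leaf

`weylC276 : WX467.WeylC`, VERBATIM vs `LT/A2/H467/WeilExSpec.lean` of helper467@50fb7012e
(sha256 966c0978, vendored byte-identical).

* `rho_eq_one276` : `Γ c⁻¹ = 1` (`(w n(1))³ = 1`, `w⁴ = 1`, `Θ(1) ≠ 0`);
* `eta_rat276`    : `η = 1` on `K^×` (`w n(a) w = t(-a⁻¹) n(-a) w n(-a⁻¹)`).
-/

set_option autoImplicit false

open IsDedekindDomain NumberField AutomorphicForm MeasureTheory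
open scoped MatrixGroups Topology

noncomputable section

namespace Fermat.Agent.LT.A2.H276

open Fermat.Agent.LT.H130 Fermat.Agent.LT.H556 Fermat.Agent.LT.A2 Fermat.Agent.LT.A2.WX467
open Fermat.Agent.LT.T1.H793

variable {K : Type} [Field K] [NumberField K]

/-- `Θ(w n(b) h) = Γ c⁻¹ Θ(h)` -/
theorem theta_weyl_unip276 (hP : Poisson2C) (L : WData K) (hL : L.IsGood)
    (hB : BorelOut L.toKData L.η) (hreg : L.toKData.IsRegular) (b : K) {h : A0.G K}
    (hh : Matrix.GeneralLinearGroup.det h = 1) :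
    theta276 L (wE276 * (nU276 (algebraMap K (A0.Adl K) b) * h))
      = Gam276 L * L.c⁻¹ * theta276 L h := by
  rw [theta_weyl276 hP L hL hB hreg (det_mul_one276 (det_nU276 _) hh),
    theta_unip276 L hL hB b hh]

/-- `Γ c⁻¹ = 1` -/
theorem rho_eq_one276 (hP : Poisson2C) (L : WData K) (hL : L.IsGood)
    (hB : BorelOut L.toKData L.η) (hreg : L.toKData.IsRegular) : Gam276 L * L.c⁻¹ = 1 := by
  have hθ := theta_one_ne_zero276 L hL hreg
  have hd1 : Matrix.GeneralLinearGroup.det (1 : A0.G K) = 1 := map_one _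
  have hn1 : nU276 (1 : A0.Adl K) = nU276 (algebraMap K (A0.Adl K) 1) := by rw [map_one]
  -- `ρ³ = 1`
  have h3 : theta276 L 1 = (Gam276 L * L.c⁻¹) ^ 3 * theta276 L 1 := by
    have e : (1 : A0.G K)
        = wE276 * (nU276 (algebraMap K (A0.Adl K) 1) *
            (wE276 * (nU276 (algebraMap K (A0.Adl K) 1) *
              (wE276 * (nU276 (algebraMap K (A0.Adl K) 1) * 1))))) := by
      rw [← hn1, mul_one, ← rel_three276 (K := K)]
      simp only [mul_assoc]
    conv_lhs => rw [e]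
    have d1 : Matrix.GeneralLinearGroup.det
        (wE276 * (nU276 (algebraMap K (A0.Adl K) 1) * (1 : A0.G K))) = 1 :=
      det_mul_one276 det_wE276 (det_mul_one276 (det_nU276 _) hd1)
    have d2 : Matrix.GeneralLinearGroup.det
        (wE276 * (nU276 (algebraMap K (A0.Adl K) 1) *
          (wE276 * (nU276 (algebraMap K (A0.Adl K) 1) * (1 : A0.G K))))) = 1 :=
      det_mul_one276 det_wE276 (det_mul_one276 (det_nU276 _) d1)
    rw [theta_weyl_unip276 hP L hL hB hreg 1 d2, theta_weyl_unip276 hP L hL hB hreg 1 d1,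
      theta_weyl_unip276 hP L hL hB hreg 1 hd1]
    ring
  -- `ρ⁴ = 1`
  have h4 : theta276 L 1 = (Gam276 L * L.c⁻¹) ^ 4 * theta276 L 1 := by
    have e : (1 : A0.G K) = wE276 * (wE276 * (wE276 * (wE276 * 1))) := by
      rw [mul_one, ← rel_four276 (K := K)]
      simp only [mul_assoc]
    conv_lhs => rw [e]
    have d1 : Matrix.GeneralLinearGroup.det (wE276 * (1 : A0.G K)) = 1 :=
      det_mul_one276 det_wE276 hd1
    have d2 : Matrix.GeneralLinearGroup.det (wE276 * (wE276 * (1 : A0.G K))) = 1 :=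
      det_mul_one276 det_wE276 d1
    have d3 : Matrix.GeneralLinearGroup.det (wE276 * (wE276 * (wE276 * (1 : A0.G K)))) = 1 :=
      det_mul_one276 det_wE276 d2
    rw [theta_weyl276 hP L hL hB hreg d3, theta_weyl276 hP L hL hB hreg d2,
      theta_weyl276 hP L hL hB hreg d1, theta_weyl276 hP L hL hB hreg hd1]
    ring
  have e3 : (Gam276 L * L.c⁻¹) ^ 3 = 1 := by
    have := mul_right_cancel₀ hθ (show (Gam276 L * L.c⁻¹) ^ 3 * theta276 L 1
      = 1 * theta276 L 1 by rw [one_mul]; exact h3.symm)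
    exact this
  have e4 : (Gam276 L * L.c⁻¹) ^ 4 = 1 := by
    have := mul_right_cancel₀ hθ (show (Gam276 L * L.c⁻¹) ^ 4 * theta276 L 1
      = 1 * theta276 L 1 by rw [one_mul]; exact h4.symm)
    exact this
  calc Gam276 L * L.c⁻¹ = (Gam276 L * L.c⁻¹) * (Gam276 L * L.c⁻¹) ^ 3 := by rw [e3, mul_one]
    _ = (Gam276 L * L.c⁻¹) ^ 4 := by ring
    _ = 1 := e4

/-! ## Reciprocity -/

theorem ratUnit_val276 (x : Kˣ) :
    ((T1.ratUnit K x : (A0.Adl K)ˣ) : A0.Adl K) = algebraMap K (A0.Adl K) (x : K) := rfl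

theorem ratUnit_inv_val276 (x : Kˣ) :
    (((T1.ratUnit K x)⁻¹ : (A0.Adl K)ˣ) : A0.Adl K) = algebraMap K (A0.Adl K) ((x⁻¹ : Kˣ) : K) := by
  rw [← map_inv]
  rfl

/-- the relation `w n(x) w = t(-x⁻¹) n(-x) w n(-x⁻¹)` for `x ∈ K^×` -/
theorem rel_diag_rat276 (x : Kˣ) :
    (wE276 (K := K)) * (nU276 (algebraMap K (A0.Adl K) (x : K)) * (wE276 * 1))
      = tA276 (T1.ratUnit K (-x⁻¹)) * (nU276 (algebraMap K (A0.Adl K) (-(x : K))) *
          (wE276 * (nU276 (algebraMap K (A0.Adl K) (-((x⁻¹ : Kˣ) : K))) * 1))) := by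
  apply Units.ext
  simp only [Units.val_mul, nU276_val, wE276_val, tA276_val, mul_one]
  rw [ratUnit_val276, ratUnit_inv_val276, inv_neg, inv_inv, Units.val_neg, Units.val_neg,
    map_neg, map_neg]
  simp only [← mul_assoc]
  refine mat_rel_diag276 (algebraMap K (A0.Adl K) (x : K))
    (algebraMap K (A0.Adl K) ((x⁻¹ : Kˣ) : K)) ?_
  rw [← map_mul, Units.mul_inv, map_one]

/-- `η(-x⁻¹) = 1` for `x ∈ K^×` -/
theorem eta_neg_inv276 (hP : Poisson2C) (L : WData K) (hT1 : T1.T1Out K) (hL : L.IsGood)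
    (hB : BorelOut L.toKData L.η) (hreg : L.toKData.IsRegular) (x : Kˣ) :
    L.η (T1.ratUnit K (-x⁻¹)) = 1 := by
  have hθ := theta_one_ne_zero276 L hL hreg
  have hρ := rho_eq_one276 hP L hL hB hreg
  have hd1 : Matrix.GeneralLinearGroup.det (1 : A0.G K) = 1 := map_one _
  have dw : Matrix.GeneralLinearGroup.det (wE276 * (1 : A0.G K)) = 1 :=
    det_mul_one276 det_wE276 hd1
  -- the left-hand side
  have hl : theta276 L (wE276 * (nU276 (algebraMap K (A0.Adl K) (x : K)) * (wE276 * 1)))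
      = theta276 L 1 := by
    rw [theta_weyl_unip276 hP L hL hB hreg _ dw, theta_weyl276 hP L hL hB hreg hd1, hρ,
      one_mul, one_mul]
  -- the right-hand side
  have dn : Matrix.GeneralLinearGroup.det
      (nU276 (algebraMap K (A0.Adl K) (-((x⁻¹ : Kˣ) : K))) * (1 : A0.G K)) = 1 :=
    det_mul_one276 (det_nU276 _) hd1
  have dwn : Matrix.GeneralLinearGroup.det
      (wE276 * (nU276 (algebraMap K (A0.Adl K) (-((x⁻¹ : Kˣ) : K))) * (1 : A0.G K))) = 1 :=
    det_mul_one276 det_wE276 dn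
  have dnwn : Matrix.GeneralLinearGroup.det
      (nU276 (algebraMap K (A0.Adl K) (-(x : K))) *
        (wE276 * (nU276 (algebraMap K (A0.Adl K) (-((x⁻¹ : Kˣ) : K))) * (1 : A0.G K)))) = 1 :=
    det_mul_one276 (det_nU276 _) dwn
  have hr : theta276 L (tA276 (T1.ratUnit K (-x⁻¹)) *
      (nU276 (algebraMap K (A0.Adl K) (-(x : K))) *
        (wE276 * (nU276 (algebraMap K (A0.Adl K) (-((x⁻¹ : Kˣ) : K))) * 1))))
      = L.η (T1.ratUnit K (-x⁻¹)) * theta276 L 1 := by
    rw [theta_diag276 L hT1 hB _ dnwn, theta_unip276 L hL hB _ dwn,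
      theta_weyl_unip276 hP L hL hB hreg _ hd1, hρ, one_mul]
  rw [rel_diag_rat276 x, hr] at hl
  have := mul_right_cancel₀ hθ (show L.η (T1.ratUnit K (-x⁻¹)) * theta276 L 1
    = 1 * theta276 L 1 by rw [one_mul]; exact hl)
  exact this

/-- `η = 1` on `K^×` -/
theorem eta_rat276 (hP : Poisson2C) (L : WData K) (hT1 : T1.T1Out K) (hL : L.IsGood)
    (hB : BorelOut L.toKData L.η) (hreg : L.toKData.IsRegular) (z : Kˣ) :
    L.η (T1.ratUnit K z) = 1 := by
  have h := eta_neg_inv276 hP L hT1 hL hB hreg (-z⁻¹)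
  rwa [inv_neg, inv_inv, neg_neg] at h

/-- **A2.03.1.4 `WeylC`**: the global Weyl formula with constant `1`, and `η = 1` on `K^×`. -/
theorem weylC276 : WX467.WeylC := by
  intro hP K _ _ L hT1 hL hB hreg
  refine ⟨fun w hw g m ξ hadm => ?_, fun x => ?_⟩
  · have h := weyl_prod276 L hL hB hw hadm ξ
    rw [rho_eq_one276 hP L hL hB hreg, one_mul] at h
    exact h
  · exact eta_rat276 hP L hT1 hL hB hreg x

end Fermat.Agent.LT.A2.H276

end
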