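import Fermat.Agent.LT.A2.H467.WeilExSpec
import Fermat.Agent.LT.T1.H793.AdeleProj

/-!
# Row LT, tower A2, leaf A2.03.1.4 `WX467.WeylC` (helper276), OFF-MAIN: local components

Shared bookkeeping for the consumers of `WData.IsGood` (use or ignore):
components of products, local admissibility, the local Weyl / unipotent / diagonal elements,
integrality at almost all places, and `Ffin v g_v m_v = stdFn v` at almost all places.
-/

set_option autoImplicit false

open IsDedekindDomain NumberField AutomorphicForm MeasureTheory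
open scoped MatrixGroups Topology

noncomputable section

namespace Fermat.Agent.LT.A2.H276

open Fermat.Agent.LT.H130 Fermat.Agent.LT.H556 Fermat.Agent.LT.A2 Fermat.Agent.LT.A2.WX467
open Fermat.Agent.LT.T1.H793

variable {K : Type} [Field K] [NumberField K]

/-! ## Components of products -/

theorem infMat_eq276 (u : InfinitePlace K) (g : A0.G K) :
    infMat u g = ((glInf793 u g : GL (Fin 2) u.Completion) : Matrix (Fin 2) (Fin 2) u.Completion) :=
  rfl

theorem infMat_mul276 (u : InfinitePlace K) (g h : A0.G K) :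
    infMat u (g * h) = infMat u g * infMat u h := by
  rw [infMat_eq276, infMat_eq276, infMat_eq276, map_mul, Units.val_mul]

theorem finComp_mul276 (v : HeightOneSpectrum (𝓞 K)) (g h : A0.G K) :
    A0.finComp v (g * h) = A0.finComp v g * A0.finComp v h := by
  rw [finComp_eq793, finComp_eq793, finComp_eq793, map_mul, Units.val_mul]

theorem infMat_one276 (u : InfinitePlace K) : infMat u (1 : A0.G K) = 1 := by
  rw [infMat_eq276, map_one, Units.val_one]

theorem finComp_one276 (v : HeightOneSpectrum (𝓞 K)) : A0.finComp v (1 : A0.G K) = 1 := by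
  rw [finComp_eq793, map_one, Units.val_one]

theorem infMat_inv276 (u : InfinitePlace K) (g : A0.G K) :
    infMat u g⁻¹ = (infMat u g)⁻¹ := by
  rw [infMat_eq276, infMat_eq276, map_inv, Matrix.coe_units_inv]

theorem finComp_inv276 (v : HeightOneSpectrum (𝓞 K)) (g : A0.G K) :
    A0.finComp v g⁻¹ = (A0.finComp v g)⁻¹ := by
  rw [finComp_eq793, finComp_eq793, map_inv, Matrix.coe_units_inv]

theorem infMat_det276 (u : InfinitePlace K) (g : A0.G K) :
    (infMat u g).det
      = projInf793 u ((Matrix.GeneralLinearGroup.det g : (A0.Adl K)ˣ) : A0.Adl K) := by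
  rw [Matrix.GeneralLinearGroup.val_det_apply, RingHom.map_det]
  rfl

theorem finComp_det276 (v : HeightOneSpectrum (𝓞 K)) (g : A0.G K) :
    (A0.finComp v g).det
      = projFin793 v ((Matrix.GeneralLinearGroup.det g : (A0.Adl K)ˣ) : A0.Adl K) := by
  rw [Matrix.GeneralLinearGroup.val_det_apply, RingHom.map_det]
  rfl

theorem infMat_det_ne_zero276 (u : InfinitePlace K) (g : A0.G K) : (infMat u g).det ≠ 0 := by
  rw [infMat_eq276]
  exact (Matrix.isUnits_det_units (glInf793 u g)).ne_zero

theorem finComp_det_ne_zero276 (v : HeightOneSpectrum (𝓞 K)) (g : A0.G K) :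
    (A0.finComp v g).det ≠ 0 := by
  rw [finComp_eq793]
  exact (Matrix.isUnits_det_units (glFin793 v g)).ne_zero

/-! ## Components of the rational numbers -/

theorem algebraMap_inf276 (u : InfinitePlace K) (x : K) :
    (algebraMap K (A0.Adl K) x).1 u = algebraMap K u.Completion x := rfl

theorem algebraMap_fin276 (v : HeightOneSpectrum (𝓞 K)) (x : K) :
    (algebraMap K (A0.Adl K) x).2 v = algebraMap K (v.adicCompletion K) x := rfl

/-! ## Local admissibility -/

theorem torMat_map276 {R S : Type*} [CommRing R] [CommRing S] (f : R →+* S) (t n a b : R) :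
    (torMat t n a b).map f = torMat (f t) (f n) (f a) (f b) := by
  unfold torMat
  ext i j
  fin_cases i <;> fin_cases j <;> simp

theorem inTorL_inf276 (t n : K) (u : InfinitePlace K) {m : A0.G K} (h : InTorus t n m) :
    InTorL (algebraMap K u.Completion t) (algebraMap K u.Completion n) (infMat u m) := by
  obtain ⟨a, b, hab⟩ := h
  refine ⟨projInf793 u a, projInf793 u b, ?_⟩
  rw [infMat_eq276, glInf793_coe, hab, torMat_map276]
  rfl

theorem inTorL_fin276 (t n : K) (v : HeightOneSpectrum (𝓞 K)) {m : A0.G K}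
    (h : InTorus t n m) :
    InTorL (algebraMap K (v.adicCompletion K) t) (algebraMap K (v.adicCompletion K) n)
      (A0.finComp v m) := by
  obtain ⟨a, b, hab⟩ := h
  refine ⟨projFin793 v a, projFin793 v b, ?_⟩
  rw [finComp_eq793, glFin793_coe, hab, torMat_map276]
  rfl

theorem admL_inf276 (t n : K) (u : InfinitePlace K) {g m : A0.G K} (h : Adm t n g m) :
    AdmL (algebraMap K u.Completion t) (algebraMap K u.Completion n) (infMat u g)
      (infMat u m) := by
  refine ⟨inTorL_inf276 t n u h.1, ?_, infMat_det_ne_zero276 u m⟩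
  rw [infMat_det276, infMat_det276, h.2]

theorem admL_fin276 (t n : K) (v : HeightOneSpectrum (𝓞 K)) {g m : A0.G K}
    (h : Adm t n g m) :
    AdmL (algebraMap K (v.adicCompletion K) t) (algebraMap K (v.adicCompletion K) n)
      (A0.finComp v g) (A0.finComp v m) := by
  refine ⟨inTorL_fin276 t n v h.1, ?_, finComp_det_ne_zero276 v m⟩
  rw [finComp_det276, finComp_det276, h.2]

theorem inTorus_one276 (t n : K) : InTorus t n (1 : A0.G K) := by
  refine ⟨1, 0, ?_⟩
  ext i j
  fin_cases i <;> fin_cases j <;> simp [torMat]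

theorem adm_one276 (t n : K) : Adm t n (1 : A0.G K) 1 := ⟨inTorus_one276 t n, rfl⟩

/-- left multiplication by an element of determinant one preserves admissibility -/
theorem adm_mul_left276 (t n : K) {s g m : A0.G K}
    (hs : Matrix.GeneralLinearGroup.det s = 1) (h : Adm t n g m) : Adm t n (s * g) m := by
  refine ⟨h.1, ?_⟩
  rw [map_mul, hs, one_mul, h.2]

/-! ## The special elements -/

theorem map_mat276 {R S : Type*} [CommRing R] [CommRing S] (f : R →+* S) (a b c d : R) :
    (!![a, b; c, d] : Matrix (Fin 2) (Fin 2) R).map f = !![f a, f b; f c, f d] := by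
  ext i j
  fin_cases i <;> fin_cases j <;> rfl

theorem infMat_weyl276 (u : InfinitePlace K) {w : A0.G K} (hw : IsWeyl w) :
    infMat u w = !![0, 1; -1, 0] := by
  rw [infMat_eq276, glInf793_coe, hw, map_mat276, map_zero, map_one, map_neg, map_one]

theorem finComp_weyl276 (v : HeightOneSpectrum (𝓞 K)) {w : A0.G K} (hw : IsWeyl w) :
    A0.finComp v w = !![0, 1; -1, 0] := by
  rw [finComp_eq793, glFin793_coe, hw, map_mat276, map_zero, map_one, map_neg, map_one]

theorem infMat_unip276 (u : InfinitePlace K) {nU : A0.Adl K → A0.G K} (hn : IsUpperUnip nU)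
    (x : A0.Adl K) : infMat u (nU x) = !![1, projInf793 u x; 0, 1] := by
  rw [infMat_eq276, glInf793_coe, hn x, map_mat276, map_zero, map_one]

theorem finComp_unip276 (v : HeightOneSpectrum (𝓞 K)) {nU : A0.Adl K → A0.G K}
    (hn : IsUpperUnip nU) (x : A0.Adl K) :
    A0.finComp v (nU x) = !![1, projFin793 v x; 0, 1] := by
  rw [finComp_eq793, glFin793_coe, hn x, map_mat276, map_zero, map_one]

theorem projInf_inv276 (u : InfinitePlace K) (a : (A0.Adl K)ˣ) :
    projInf793 u ((a⁻¹ : (A0.Adl K)ˣ) : A0.Adl K) = (projInf793 u (a : A0.Adl K))⁻¹ := by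
  have h := congrArg (projInf793 u) a.mul_inv
  rw [map_mul, map_one] at h
  exact eq_inv_of_mul_eq_one_right h

theorem projFin_inv276 (v : HeightOneSpectrum (𝓞 K)) (a : (A0.Adl K)ˣ) :
    projFin793 v ((a⁻¹ : (A0.Adl K)ˣ) : A0.Adl K) = (projFin793 v (a : A0.Adl K))⁻¹ := by
  have h := congrArg (projFin793 v) a.mul_inv
  rw [map_mul, map_one] at h
  exact eq_inv_of_mul_eq_one_right h

theorem projInf_unit_ne_zero276 (u : InfinitePlace K) (a : (A0.Adl K)ˣ) :
    projInf793 u (a : A0.Adl K) ≠ 0 := by
  intro h0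
  have h := congrArg (projInf793 u) a.mul_inv
  rw [map_mul, map_one, h0, zero_mul] at h
  exact zero_ne_one h

theorem projFin_unit_ne_zero276 (v : HeightOneSpectrum (𝓞 K)) (a : (A0.Adl K)ˣ) :
    projFin793 v (a : A0.Adl K) ≠ 0 := by
  intro h0
  have h := congrArg (projFin793 v) a.mul_inv
  rw [map_mul, map_one, h0, zero_mul] at h
  exact zero_ne_one h

theorem infMat_diagSLA276 (u : InfinitePlace K) {s : A0.G K} {a : (A0.Adl K)ˣ}
    (hs : WL.IsDiagSLA s a) :
    infMat u s = !![projInf793 u (a : A0.Adl K), 0; 0, (projInf793 u (a : A0.Adl K))⁻¹] := by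
  rw [infMat_eq276, glInf793_coe, hs, ← projInf_inv276, map_mat276, map_zero]

theorem finComp_diagSLA276 (v : HeightOneSpectrum (𝓞 K)) {s : A0.G K} {a : (A0.Adl K)ˣ}
    (hs : WL.IsDiagSLA s a) :
    A0.finComp v s
      = !![projFin793 v (a : A0.Adl K), 0; 0, (projFin793 v (a : A0.Adl K))⁻¹] := by
  rw [finComp_eq793, glFin793_coe, hs, ← projFin_inv276, map_mat276, map_zero]

/-! ## Determinant one -/

theorem det_eq_one_of_val276 {s : A0.G K}
    (h : (s : Matrix (Fin 2) (Fin 2) (A0.Adl K)).det = 1) :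
    Matrix.GeneralLinearGroup.det s = 1 := by
  apply Units.ext
  rw [Matrix.GeneralLinearGroup.val_det_apply, h]
  rfl

theorem det_weyl276 {w : A0.G K} (hw : IsWeyl w) : Matrix.GeneralLinearGroup.det w = 1 := by
  apply det_eq_one_of_val276
  rw [hw, Matrix.det_fin_two_of]
  ring

theorem det_unip276 {nU : A0.Adl K → A0.G K} (hn : IsUpperUnip nU) (x : A0.Adl K) :
    Matrix.GeneralLinearGroup.det (nU x) = 1 := by
  apply det_eq_one_of_val276
  rw [hn x, Matrix.det_fin_two_of]
  ring

theorem det_diagSLA276 {s : A0.G K} {a : (A0.Adl K)ˣ} (hs : WL.IsDiagSLA s a) :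
    Matrix.GeneralLinearGroup.det s = 1 := by
  apply det_eq_one_of_val276
  rw [hs, Matrix.det_fin_two_of]
  simp

/-! ## Density of the level at the good places (method of helper129, `H129/HeckeLevel.lean`) -/

open IsDedekindDomain.HeightOneSpectrum in
/-- `𝓞 K` is dense in `𝒪_v`. -/
theorem exists_int_mem_nhds276 (v : HeightOneSpectrum (𝓞 K)) {x : v.adicCompletion K}
    (hx : Valued.v x ≤ 1) {t : Set (v.adicCompletion K)} (ht : t ∈ nhds x) :
    ∃ a : 𝓞 K, ((algebraMap (𝓞 K) K a : K) : v.adicCompletion K) ∈ t := by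
  have hB : {z : v.adicCompletion K | Valued.v (z - x) < 1} ∈ nhds x := by
    rw [Valued.mem_nhds]
    refine ⟨1, fun w hw => ?_⟩
    simpa using hw
  have hint : interior t ∩ {z : v.adicCompletion K | Valued.v (z - x) < 1} ∈ nhds x :=
    Filter.inter_mem (interior_mem_nhds.mpr ht) hB
  have hx' : x ∈ closure (Set.range (algebraMap K (v.adicCompletion K))) := by
    rw [(denseRange_algebraMap (K := K) v).closure_range]; exact Set.mem_univ x
  obtain ⟨_, ⟨hkt, hkB⟩, ⟨k, rfl⟩⟩ := mem_closure_iff_nhds.mp hx' _ hint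
  have hk' : Valued.v (algebraMap K (v.adicCompletion K) k - x) < 1 := hkB
  have hk1 : v.valuation K k ≤ 1 := by
    rw [← valuedAdicCompletion_eq_valuation']
    have : ((k : K) : v.adicCompletion K) = (algebraMap K (v.adicCompletion K) k - x) + x := by
      have h1 : ((k : K) : v.adicCompletion K) = algebraMap K (v.adicCompletion K) k := rfl
      rw [h1]; ring
    rw [this]
    exact le_trans (Valuation.map_add _ _ _) (max_le hk'.le hx)
  have htk : interior t ∈ nhds (algebraMap K (v.adicCompletion K) k) :=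
    isOpen_interior.mem_nhds hkt
  rw [Valued.mem_nhds] at htk
  obtain ⟨γ, hγ⟩ := htk
  have hγ0 : MonoidWithZeroHom.ValueGroup₀.embedding γ.1 ≠ 0 := by
    intro h
    have h1 := (MonoidWithZeroHom.ValueGroup₀.embedding_strictMono
      (f := MonoidWithZeroHom.ofClass (Valued.v : Valuation (v.adicCompletion K) _))).injective
      (h.trans (map_zero _).symm)
    exact γ.ne_zero h1
  obtain ⟨a, ha⟩ := exists_valuation_sub_lt_of_integer v hk1 (Units.mk0 _ hγ0)
  refine ⟨a, interior_subset (hγ ?_)⟩
  show (Valued.v : Valuation (v.adicCompletion K) _).restrict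
    (((algebraMap (𝓞 K) K a : K) : v.adicCompletion K) - algebraMap K (v.adicCompletion K) k)
      < γ.1
  rw [Valuation.restrict_lt_iff_lt_embedding]
  have e : ((algebraMap (𝓞 K) K a : K) : v.adicCompletion K)
      - algebraMap K (v.adicCompletion K) k
      = ((algebraMap (𝓞 K) K a - k : K) : v.adicCompletion K) :=
    (map_sub (algebraMap K (v.adicCompletion K)) _ _).symm
  rw [e, valuedAdicCompletion_eq_valuation']
  simpa using ha

open IsDedekindDomain.HeightOneSpectrum in
/-- For `v ∤ 𝔫` the ideal `𝔫` is dense in `𝒪_v`. -/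
theorem dense_ideal276 {𝔫 : Ideal (𝓞 K)} {v : HeightOneSpectrum (𝓞 K)}
    (hv : ¬ v.asIdeal ∣ 𝔫) {x : v.adicCompletion K} (hx : Valued.v x ≤ 1) :
    x ∈ A0.idealClosure 𝔫 v := by
  have hnle : ¬ 𝔫 ≤ v.asIdeal := fun h => hv (Ideal.dvd_iff_le.mpr h)
  obtain ⟨s, hs𝔫, hsv⟩ := Set.not_subset.mp hnle
  have hsval : Valued.v (((algebraMap (𝓞 K) K s : K) : v.adicCompletion K)) = 1 := by
    rw [valuedAdicCompletion_eq_valuation', valuation_eq_one_iff_notMem]
    exact hsv
  set S : v.adicCompletion K := ((algebraMap (𝓞 K) K s : K) : v.adicCompletion K) with hS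
  have hS0 : S ≠ 0 := by
    intro h
    rw [h, map_zero] at hsval
    exact zero_ne_one hsval
  unfold A0.idealClosure
  rw [mem_closure_iff_nhds]
  intro t ht
  have hxs : Valued.v (x / S) ≤ 1 := by
    rw [map_div₀, hsval, div_one]; exact hx
  have hcont : Filter.Tendsto (fun z : v.adicCompletion K => z * S) (nhds (x / S)) (nhds x) := by
    have h1 : Continuous (fun z : v.adicCompletion K => z * S) := continuous_mul_const S
    have h2 := h1.tendsto (x / S)
    rwa [div_mul_cancel₀ x hS0] at h2
  obtain ⟨a, ha⟩ := exists_int_mem_nhds276 v hxs (hcont ht)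
  refine ⟨((algebraMap (𝓞 K) K a : K) : v.adicCompletion K) * S, ha, a * s,
    𝔫.mul_mem_left a hs𝔫, ?_⟩
  show algebraMap K (v.adicCompletion K) (algebraMap (𝓞 K) K (a * s))
    = algebraMap K (v.adicCompletion K) (algebraMap (𝓞 K) K a)
      * algebraMap K (v.adicCompletion K) (algebraMap (𝓞 K) K s)
  rw [map_mul, map_mul]

/-! ## Almost all places -/

/-- an adele is integral at almost all finite places -/
theorem eventually_integral276 (x : A0.Adl K) :
    ∀ᶠ v : HeightOneSpectrum (𝓞 K) in Filter.cofinite,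
      projFin793 v x ∈ v.adicCompletionIntegers K :=
  x.2.2

/-- the entries of `g` and of `g⁻¹` are integral at almost all finite places -/
theorem eventually_maxCompact276 (g : A0.G K) :
    ∀ᶠ v : HeightOneSpectrum (𝓞 K) in Filter.cofinite,
      (∀ i j : Fin 2, A0.finComp v g i j ∈ v.adicCompletionIntegers K) ∧
      ∀ i j : Fin 2, (A0.finComp v g)⁻¹ i j ∈ v.adicCompletionIntegers K := by
  have h1 : ∀ i j : Fin 2, ∀ᶠ v : HeightOneSpectrum (𝓞 K) in Filter.cofinite,
      A0.finComp v g i j ∈ v.adicCompletionIntegers K :=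
    fun i j => eventually_integral276 ((g : Matrix (Fin 2) (Fin 2) (A0.Adl K)) i j)
  have h2 : ∀ i j : Fin 2, ∀ᶠ v : HeightOneSpectrum (𝓞 K) in Filter.cofinite,
      A0.finComp v g⁻¹ i j ∈ v.adicCompletionIntegers K :=
    fun i j => eventually_integral276 ((g⁻¹ : A0.G K).1 i j)
  have h1' := Filter.eventually_all.2 fun i => Filter.eventually_all.2 (h1 i)
  have h2' := Filter.eventually_all.2 fun i => Filter.eventually_all.2 (h2 i)
  filter_upwards [h1', h2'] with v hv1 hv2
  refine ⟨hv1, fun i j => ?_⟩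
  rw [← finComp_inv276]
  exact hv2 i j

/-- almost all finite places do not divide a nonzero ideal -/
theorem eventually_not_dvd276 {𝔫 : Ideal (𝓞 K)} (h𝔫 : 𝔫 ≠ ⊥) :
    ∀ᶠ v : HeightOneSpectrum (𝓞 K) in Filter.cofinite, ¬ v.asIdeal ∣ 𝔫 := by
  rw [Filter.eventually_cofinite]
  simp only [not_not]
  exact Ideal.finite_factors h𝔫

/-! ## The standard function at almost all places -/

theorem inTorL_one276 {k : Type} [Field k] (t n : k) :
    InTorL t n (1 : Matrix (Fin 2) (Fin 2) k) := by
  refine ⟨1, 0, ?_⟩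
  unfold torMat
  ext i j
  fin_cases i <;> fin_cases j <;> simp

theorem admL_one276 {k : Type} [Field k] (t n : k) :
    AdmL t n (1 : Matrix (Fin 2) (Fin 2) k) 1 :=
  ⟨inTorL_one276 t n, rfl, by simp⟩

theorem one_apply_integral276 (v : HeightOneSpectrum (𝓞 K)) (i j : Fin 2) :
    (1 : Matrix (Fin 2) (Fin 2) (v.adicCompletion K)) i j ∈ v.adicCompletionIntegers K := by
  by_cases h : i = j
  · rw [h, Matrix.one_apply_eq]; exact one_mem _
  · rw [Matrix.one_apply_ne h]; exact zero_mem _

/-- at a good place an invertible matrix which is integral with its inverse lies in the local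
level group -/
theorem inLevL_of_integral276 {𝔫 : Ideal (𝓞 K)} {v : HeightOneSpectrum (𝓞 K)}
    (hv : ¬ v.asIdeal ∣ 𝔫) (k : Matrix (Fin 2) (Fin 2) (v.adicCompletion K)) (hdet : k.det ≠ 0)
    (hk : ∀ i j : Fin 2, k i j ∈ v.adicCompletionIntegers K)
    (hk' : ∀ i j : Fin 2, k⁻¹ i j ∈ v.adicCompletionIntegers K) : InLevL 𝔫 v k := by
  refine ⟨hdet, fun i j => ⟨dense_ideal276 hv ?_, dense_ideal276 hv ?_⟩⟩
  · exact sub_mem (hk i j) (one_apply_integral276 v i j)
  · exact sub_mem (hk' i j) (one_apply_integral276 v i j)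

/-- **standard at the good places**: if `v ∤ level` and the components of `g`, `m` at `v` are
integral with their inverses, then `F_v(g_v, m_v) = 1_{𝒪_v²}`. -/
theorem Ffin_eq_std276 (L : WData K) (hL : L.IsGood) (v : HeightOneSpectrum (𝓞 K))
    (hv : ¬ v.asIdeal ∣ L.π.level) (k κ : Matrix (Fin 2) (Fin 2) (v.adicCompletion K))
    (hk : ∀ i j : Fin 2, k i j ∈ v.adicCompletionIntegers K)
    (hk' : ∀ i j : Fin 2, k⁻¹ i j ∈ v.adicCompletionIntegers K)
    (hκ : ∀ i j : Fin 2, κ i j ∈ v.adicCompletionIntegers K)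
    (hκ' : ∀ i j : Fin 2, κ⁻¹ i j ∈ v.adicCompletionIntegers K)
    (hadm : AdmL (L.tfin v) (L.nfin v) k κ) : L.Ffin v k κ = stdFn v := by
  funext ξ
  have hlev : InLevL L.π.level v k :=
    inLevL_of_integral276 hv k (by rw [hadm.2.1]; exact hadm.2.2) hk hk'
  have htl : κ ∈ L.Tlev v := ((hL.good v hv).tlev κ).2 ⟨hadm.1, hadm.2.2, hκ, hκ'⟩
  have h := (hL.fin v).right_inv k κ hlev htl hadm.2.1 1 1 ξ (admL_one276 _ _)
  rw [one_mul, one_mul] at h
  rw [h, (hL.good v hv).std]

/-- for an admissible pair, `F_v(g_v, m_v) = 1_{𝒪_v²}` at almost all places -/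
theorem eventually_Ffin_eq_std276 (L : WData K) (hL : L.IsGood) {g m : A0.G K}
    (h : Adm L.t L.n g m) :
    ∀ᶠ v : HeightOneSpectrum (𝓞 K) in Filter.cofinite,
      L.Ffin v (A0.finComp v g) (A0.finComp v m) = stdFn v := by
  filter_upwards [eventually_not_dvd276 L.π.level_ne_bot, eventually_maxCompact276 g,
    eventually_maxCompact276 m] with v hv hg hm
  exact Ffin_eq_std276 L hL v hv _ _ hg.1 hg.2 hm.1 hm.2 (admL_fin276 L.t L.n v h)

/-! ## Adeles supported at one place -/

/-- the adele supported at the finite place `v` with component `y` -/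
def sglFin276 (v : HeightOneSpectrum (𝓞 K)) (y : v.adicCompletion K) : A0.Adl K := by
  classical
  exact (show InfiniteAdeleRing K × FiniteAdeleRing (𝓞 K) K from
    (0, ⟨Pi.single v y, by
      rw [Filter.eventually_cofinite]
      refine (Set.finite_singleton v).subset fun v' hv' => ?_
      by_contra hne
      apply hv'
      simp only [Set.mem_singleton_iff] at hne
      rw [Pi.single_eq_of_ne hne]
      exact zero_mem _⟩))

theorem sglFin_same276 (v : HeightOneSpectrum (𝓞 K)) (y : v.adicCompletion K) :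
    projFin793 v (sglFin276 v y) = y := by
  classical
  show (Pi.single v y : ∀ v' : HeightOneSpectrum (𝓞 K), v'.adicCompletion K) v = y
  exact Pi.single_eq_same v y

theorem sglFin_ne276 (v : HeightOneSpectrum (𝓞 K)) (y : v.adicCompletion K)
    (v' : HeightOneSpectrum (𝓞 K)) (h : v' ≠ v) : projFin793 v' (sglFin276 v y) = 0 := by
  classical
  show (Pi.single v y : ∀ v' : HeightOneSpectrum (𝓞 K), v'.adicCompletion K) v' = 0
  exact Pi.single_eq_of_ne h y

theorem sglFin_inf276 (v : HeightOneSpectrum (𝓞 K)) (y : v.adicCompletion K)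
    (u : InfinitePlace K) : projInf793 u (sglFin276 v y) = 0 := rfl

theorem adlAtFin_sglFin276 (v : HeightOneSpectrum (𝓞 K)) (y : v.adicCompletion K) :
    WL.AdlAtFin v (sglFin276 v y) :=
  ⟨fun u => sglFin_inf276 v y u, fun v' h => sglFin_ne276 v y v' h⟩

/-- the adele supported at the infinite place `u` with component `y` -/
def sglInf276 (u : InfinitePlace K) (y : u.Completion) : A0.Adl K := by
  classical
  exact (show InfiniteAdeleRing K × FiniteAdeleRing (𝓞 K) K from (Pi.single u y, 0))

theorem sglInf_same276 (u : InfinitePlace K) (y : u.Completion) :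
    projInf793 u (sglInf276 u y) = y := by
  classical
  show (Pi.single u y : ∀ u' : InfinitePlace K, u'.Completion) u = y
  exact Pi.single_eq_same u y

theorem sglInf_ne276 (u : InfinitePlace K) (y : u.Completion) (u' : InfinitePlace K)
    (h : u' ≠ u) : projInf793 u' (sglInf276 u y) = 0 := by
  classical
  show (Pi.single u y : ∀ u' : InfinitePlace K, u'.Completion) u' = 0
  exact Pi.single_eq_of_ne h y

theorem sglInf_fin276 (u : InfinitePlace K) (y : u.Completion)
    (v : HeightOneSpectrum (𝓞 K)) : projFin793 v (sglInf276 u y) = 0 := rfl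

theorem adlAtInf_sglInf276 (u : InfinitePlace K) (y : u.Completion) :
    WL.AdlAtInf u (sglInf276 u y) :=
  ⟨fun u' h => sglInf_ne276 u y u' h, fun v => sglInf_fin276 u y v⟩

/-- the local character at a good place is trivial on the integers -/
theorem psifin_integral276 (L : WData K) (hL : L.IsGood) (v : HeightOneSpectrum (𝓞 K))
    (hv : ¬ v.asIdeal ∣ L.π.level) (y : v.adicCompletion K)
    (hy : y ∈ v.adicCompletionIntegers K) : L.ψfin v y = 1 := by
  have h1 := (hL.fin v).psi (sglFin276 v y) (adlAtFin_sglFin276 v y)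
  have h2 := (hL.good v hv).good_psi.1 (sglFin276 v y) (adlAtFin_sglFin276 v y)
    (by rw [← projFin793_apply, sglFin_same276]; exact hy)
  rw [← projFin793_apply, sglFin_same276] at h1
  rw [← h1, h2]

end Fermat.Agent.LT.A2.H276

end
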