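import Fermat.Agent.LT.A2.H276.WeylComp

/-!
# Row LT, tower A2, leaf A2.03.1.4 `WX467.WeylC` (helper276), OFF-MAIN: the elements

The elements `n(x)`, `w`, `t(a)` of `SL₂(𝔸_K)` as elements of `A0.G K`, and the relations
`(w n(1))³ = 1`, `w⁴ = 1`, `w n(a) w = t(-a⁻¹) n(-a) w n(-a⁻¹)`.
-/

set_option autoImplicit false

open IsDedekindDomain NumberField AutomorphicForm MeasureTheory
open scoped MatrixGroups Topology

noncomputable section

namespace Fermat.Agent.LT.A2.H276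

open Fermat.Agent.LT.H130 Fermat.Agent.LT.H556 Fermat.Agent.LT.A2 Fermat.Agent.LT.A2.WX467
open Fermat.Agent.LT.T1.H793

/-! ## Matrix identities over a commutative ring -/

section Generic

variable {R : Type*} [CommRing R]

theorem mat_unip_mul276 (x y : R) :
    (!![1, x; 0, 1] : Matrix (Fin 2) (Fin 2) R) * !![1, y; 0, 1] = !![1, x + y; 0, 1] := by
  ext i j
  fin_cases i <;> fin_cases j <;> simp [Matrix.mul_apply, Fin.sum_univ_two, add_comm]

theorem mat_unip_zero276 : (!![1, 0; 0, 1] : Matrix (Fin 2) (Fin 2) R) = 1 := by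
  ext i j
  fin_cases i <;> fin_cases j <;> simp

theorem mat_weyl_mul_inv276 :
    (!![0, 1; -1, 0] : Matrix (Fin 2) (Fin 2) R) * !![0, -1; 1, 0] = 1 := by
  ext i j
  fin_cases i <;> fin_cases j <;> simp [Matrix.mul_apply, Fin.sum_univ_two]

theorem mat_weyl_inv_mul276 :
    (!![0, -1; 1, 0] : Matrix (Fin 2) (Fin 2) R) * !![0, 1; -1, 0] = 1 := by
  ext i j
  fin_cases i <;> fin_cases j <;> simp [Matrix.mul_apply, Fin.sum_univ_two]

theorem mat_diag_mul276 (a b c d : R) :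
    (!![a, 0; 0, b] : Matrix (Fin 2) (Fin 2) R) * !![c, 0; 0, d] = !![a * c, 0; 0, b * d] := by
  ext i j
  fin_cases i <;> fin_cases j <;> simp [Matrix.mul_apply, Fin.sum_univ_two]

/-- `(w n(1))³ = 1` -/
theorem mat_rel_three276 :
    ((!![0, 1; -1, 0] : Matrix (Fin 2) (Fin 2) R) * !![1, 1; 0, 1]) *
      ((!![0, 1; -1, 0] : Matrix (Fin 2) (Fin 2) R) * !![1, 1; 0, 1]) *
      ((!![0, 1; -1, 0] : Matrix (Fin 2) (Fin 2) R) * !![1, 1; 0, 1]) = 1 := by
  ext i j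
  fin_cases i <;> fin_cases j <;> simp [Matrix.mul_apply, Fin.sum_univ_two]

/-- `w⁴ = 1` -/
theorem mat_rel_four276 :
    (!![0, 1; -1, 0] : Matrix (Fin 2) (Fin 2) R) * !![0, 1; -1, 0] *
      (!![0, 1; -1, 0] * !![0, 1; -1, 0]) = 1 := by
  ext i j
  fin_cases i <;> fin_cases j <;> simp [Matrix.mul_apply, Fin.sum_univ_two]

/-- `w n(a) w = t(-a⁻¹) n(-a) w n(-a⁻¹)`, with `b = a⁻¹`. -/
theorem mat_rel_diag276 (a b : R) (hab : a * b = 1) :
    (!![0, 1; -1, 0] : Matrix (Fin 2) (Fin 2) R) * !![1, a; 0, 1] * !![0, 1; -1, 0]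
      = !![-b, 0; 0, -a] * !![1, -a; 0, 1] * !![0, 1; -1, 0] * !![1, -b; 0, 1] := by
  have hba : b * a = 1 := by rw [mul_comm]; exact hab
  ext i j
  fin_cases i <;> fin_cases j <;>
    simp [Matrix.mul_apply, Fin.sum_univ_two, hab, hba]

end Generic

variable {K : Type} [Field K] [NumberField K]

/-! ## The elements -/

/-- `n(x) = [[1, x], [0, 1]]` -/
def nU276 (x : A0.Adl K) : A0.G K where
  val := !![1, x; 0, 1]
  inv := !![1, -x; 0, 1]
  val_inv := by rw [mat_unip_mul276, add_neg_cancel, mat_unip_zero276]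
  inv_val := by rw [mat_unip_mul276, neg_add_cancel, mat_unip_zero276]

theorem isUpperUnip_nU276 : IsUpperUnip (nU276 (K := K)) := fun _ => rfl

/-- `w = [[0, 1], [-1, 0]]` -/
def wE276 : A0.G K where
  val := !![0, 1; -1, 0]
  inv := !![0, -1; 1, 0]
  val_inv := mat_weyl_mul_inv276
  inv_val := mat_weyl_inv_mul276

theorem isWeyl_wE276 : IsWeyl (wE276 (K := K)) := rfl

/-- `t(a) = diag(a, a⁻¹)` -/
def tA276 (a : (A0.Adl K)ˣ) : A0.G K where
  val := !![(a : A0.Adl K), 0; 0, ((a⁻¹ : (A0.Adl K)ˣ) : A0.Adl K)]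
  inv := !![((a⁻¹ : (A0.Adl K)ˣ) : A0.Adl K), 0; 0, (a : A0.Adl K)]
  val_inv := by rw [mat_diag_mul276, Units.mul_inv, Units.inv_mul, mat_unip_zero276]
  inv_val := by rw [mat_diag_mul276, Units.mul_inv, Units.inv_mul, mat_unip_zero276]

theorem isDiagSLA_tA276 (a : (A0.Adl K)ˣ) : WL.IsDiagSLA (tA276 a) a := rfl

theorem nU276_val (x : A0.Adl K) :
    ((nU276 x : A0.G K) : Matrix (Fin 2) (Fin 2) (A0.Adl K)) = !![1, x; 0, 1] := rfl

theorem wE276_val :
    ((wE276 : A0.G K) : Matrix (Fin 2) (Fin 2) (A0.Adl K)) = !![0, 1; -1, 0] := rfl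

theorem tA276_val (a : (A0.Adl K)ˣ) :
    ((tA276 a : A0.G K) : Matrix (Fin 2) (Fin 2) (A0.Adl K))
      = !![(a : A0.Adl K), 0; 0, ((a⁻¹ : (A0.Adl K)ˣ) : A0.Adl K)] := rfl

/-! ## The relations -/

theorem rel_three276 :
    (wE276 (K := K) * nU276 1) * (wE276 * nU276 1) * (wE276 * nU276 1) = 1 := by
  apply Units.ext
  simp only [Units.val_mul, nU276_val, wE276_val, Units.val_one]
  exact mat_rel_three276

theorem rel_four276 : (wE276 (K := K)) * wE276 * (wE276 * wE276) = 1 := by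
  apply Units.ext
  simp only [Units.val_mul, wE276_val, Units.val_one]
  exact mat_rel_four276

theorem rel_diag276 (a : (A0.Adl K)ˣ) :
    (wE276 (K := K)) * nU276 (a : A0.Adl K) * wE276
      = tA276 (-a⁻¹) * nU276 (-(a : A0.Adl K)) * wE276
          * nU276 (-((a⁻¹ : (A0.Adl K)ˣ) : A0.Adl K)) := by
  apply Units.ext
  simp only [Units.val_mul, nU276_val, wE276_val, tA276_val]
  rw [inv_neg, inv_inv, Units.val_neg, Units.val_neg]
  exact mat_rel_diag276 (a : A0.Adl K) ((a⁻¹ : (A0.Adl K)ˣ) : A0.Adl K) a.mul_inv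

end Fermat.Agent.LT.A2.H276

end
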