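import Fermat.Agent.LT.A2.H276.WeylPsi
import Fermat.Agent.LT.H11.SC

/-!
# Row LT, tower A2, leaf A2.03.1.4 `WX467.WeylC` (helper276), OFF-MAIN: the Weyl formula with
the constant `Γ c⁻¹`

`weyl_prod276 : F (w g) m ξ = Γ c⁻¹ ∫ F g m y ψ(B(ξ, y)) dy`, `Γ = ∏_u γ_u ∏_v γ_v`, from the
local axioms `LocAx.weyl` and the product formula for the integrals `ProdInt`.
-/

set_option autoImplicit false
set_option linter.style.haveILetI false

open IsDedekindDomain NumberField AutomorphicForm MeasureTheory
open scoped MatrixGroups Topology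

noncomputable section

namespace Fermat.Agent.LT.A2.H276

open Fermat.Agent.LT.H130 Fermat.Agent.LT.H556 Fermat.Agent.LT.A2 Fermat.Agent.LT.A2.WX467
open Fermat.Agent.LT.T1.H793

/-! ## Local factors -/

section Local

variable {k : Type} [Field k] [TopologicalSpace k] [IsTopologicalRing k]

theorem continuous_bfL276 (t n : k) (ξ : k × k) :
    Continuous (fun y : k × k => bfL t n ξ y) := by
  unfold bfL qfL
  fun_prop

/-- the local integrand of the Weyl formula is continuous and integrable -/
theorem local_factor276 [SecondCountableTopology k] {absv : k → ℝ} {t n : k} {ψ : k → ℂ}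
    {μ : @Measure k (borel k)} {γ : ℂ} {η : k → ℂ}
    {F : Matrix (Fin 2) (Fin 2) k → Matrix (Fin 2) (Fin 2) k → k × k → ℂ}
    (ax : LocAx absv t n ψ μ γ η F) (g m : Matrix (Fin 2) (Fin 2) k) (h : AdmL t n g m)
    (ξ : k × k) :
    Continuous (fun y => F g m y * ψ (bfL t n ξ y)) ∧
      IntegrableL μ (fun y => F g m y * ψ (bfL t n ξ y)) := by
  have hc : Continuous (fun y : k × k => ψ (bfL t n ξ y)) :=
    ax.psi_char.1.comp (continuous_bfL276 t n ξ)
  refine ⟨(ax.cont g m h).mul hc, ?_⟩
  have hi := ax.integrable g m h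
  unfold IntegrableL at hi ⊢
  letI : MeasurableSpace k := borel k
  haveI : BorelSpace k := ⟨rfl⟩
  exact hi.mul_bdd (c := 1) hc.aestronglyMeasurable
    (Filter.Eventually.of_forall fun y => le_of_eq (ax.psi_char.2.2 _))

end Local

variable {K : Type} [Field K] [NumberField K]

/-! ## The integral of the standard function -/

theorem stdFn_eq_indicator276 (v : HeightOneSpectrum (𝓞 K)) :
    stdFn v = Set.indicator
      ((v.adicCompletionIntegers K : Set (v.adicCompletion K)) ×ˢ
        (v.adicCompletionIntegers K : Set (v.adicCompletion K))) (fun _ => (1 : ℂ)) := by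
  classical
  funext ξ
  by_cases h : ξ.1 ∈ v.adicCompletionIntegers K ∧ ξ.2 ∈ v.adicCompletionIntegers K
  · rw [stdFn_of_integral276 v ξ h.1 h.2, Set.indicator_of_mem (Set.mem_prod.2 h)]
  · rw [stdFn_of_not_integral276 v ξ h, Set.indicator_of_notMem]
    exact fun h' => h (Set.mem_prod.1 h')

theorem intL_stdFn276 (v : HeightOneSpectrum (𝓞 K))
    (μ : @Measure (v.adicCompletion K) (borel (v.adicCompletion K)))
    (hfin : ∀ C : Set (v.adicCompletion K), IsCompact C → μ C < ⊤)
    (h1 : μ (v.adicCompletionIntegers K : Set (v.adicCompletion K)) = 1) :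
    intL μ (stdFn v) = 1 := by
  unfold intL
  letI : MeasurableSpace (v.adicCompletion K) := borel (v.adicCompletion K)
  haveI : BorelSpace (v.adicCompletion K) := ⟨rfl⟩
  haveI := Fermat.Agent.LT.H11.SC.secondCountableTopology_adicCompletion_h11 K v
  haveI := Fermat.Agent.LT.H11.LC.locallyCompactSpace_adicCompletion_h11 K v
  haveI : IsFiniteMeasureOnCompacts μ := ⟨fun C hC => hfin C hC⟩
  have hO : MeasurableSet (v.adicCompletionIntegers K : Set (v.adicCompletion K)) :=
    (Valued.isOpen_valuationSubring (v.adicCompletion K)).measurableSet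
  rw [stdFn_eq_indicator276, integral_indicator_const _ (hO.prod hO), Measure.real,
    Measure.prod_prod, h1]
  simp

/-! ## The constant `Γ` -/

/-- `Γ = ∏_u γ_u ∏_v γ_v` -/
def Gam276 (L : WData K) : ℂ :=
  (∏ u : InfinitePlace K, L.γinf u) * ∏ᶠ v : HeightOneSpectrum (𝓞 K), L.γfin v

theorem eventually_gamma_eq_one276 (L : WData K) (hL : L.IsGood) :
    ∀ᶠ v : HeightOneSpectrum (𝓞 K) in Filter.cofinite, L.γfin v = 1 := by
  filter_upwards [eventually_not_dvd276 L.π.level_ne_bot] with v hv
  exact (hL.good v hv).gamma_one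

/-! ## The local integrands -/

/-- the local integrand at an infinite place -/
def fInf276 (L : WData K) (g m : A0.G K) (ξ : A0.Adl K × A0.Adl K) (u : InfinitePlace K)
    (y : u.Completion × u.Completion) : ℂ :=
  L.Finf u (infMat u g) (infMat u m) y * L.ψinf u (bfL (L.tinf u) (L.ninf u) (infVec u ξ) y)

/-- the local integrand at a finite place -/
def fFin276 (L : WData K) (g m : A0.G K) (ξ : A0.Adl K × A0.Adl K)
    (v : HeightOneSpectrum (𝓞 K)) (y : v.adicCompletion K × v.adicCompletion K) : ℂ :=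
  L.Ffin v (A0.finComp v g) (A0.finComp v m) y *
    L.ψfin v (bfL (L.tfin v) (L.nfin v) (finVec v ξ) y)

theorem qfL_integral276 (v : HeightOneSpectrum (𝓞 K)) (t n : v.adicCompletion K)
    (ht : t ∈ v.adicCompletionIntegers K) (hn : n ∈ v.adicCompletionIntegers K)
    (ξ : v.adicCompletion K × v.adicCompletion K) (h1 : ξ.1 ∈ v.adicCompletionIntegers K)
    (h2 : ξ.2 ∈ v.adicCompletionIntegers K) : qfL t n ξ ∈ v.adicCompletionIntegers K := by
  unfold qfL
  exact add_mem (add_mem (pow_mem h1 2) (mul_mem (mul_mem ht h1) h2)) (mul_mem hn (pow_mem h2 2))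

theorem bfL_integral276 (v : HeightOneSpectrum (𝓞 K)) (t n : v.adicCompletion K)
    (ht : t ∈ v.adicCompletionIntegers K) (hn : n ∈ v.adicCompletionIntegers K)
    (ξ y : v.adicCompletion K × v.adicCompletion K) (h1 : ξ.1 ∈ v.adicCompletionIntegers K)
    (h2 : ξ.2 ∈ v.adicCompletionIntegers K) (h3 : y.1 ∈ v.adicCompletionIntegers K)
    (h4 : y.2 ∈ v.adicCompletionIntegers K) : bfL t n ξ y ∈ v.adicCompletionIntegers K := by
  unfold bfL
  refine sub_mem (sub_mem (qfL_integral276 v t n ht hn _ ?_ ?_)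
    (qfL_integral276 v t n ht hn _ h1 h2)) (qfL_integral276 v t n ht hn _ h3 h4)
  · exact add_mem h1 h3
  · exact add_mem h2 h4

/-- almost all local integrands are the standard function -/
theorem eventually_fFin_eq_std276 (L : WData K) (hL : L.IsGood) {g m : A0.G K}
    (h : Adm L.t L.n g m) (ξ : A0.Adl K × A0.Adl K) :
    ∀ᶠ v : HeightOneSpectrum (𝓞 K) in Filter.cofinite, fFin276 L g m ξ v = stdFn v := by
  filter_upwards [eventually_Ffin_eq_std276 L hL h, eventually_finVec_integral276 ξ,
    eventually_not_dvd276 L.π.level_ne_bot] with v h1 h2 hv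
  funext y
  unfold fFin276
  rw [h1]
  by_cases hy : y.1 ∈ v.adicCompletionIntegers K ∧ y.2 ∈ v.adicCompletionIntegers K
  · have hb : bfL (L.tfin v) (L.nfin v) (finVec v ξ) y ∈ v.adicCompletionIntegers K :=
      bfL_integral276 v _ _ (hL.good v hv).good_int.1 (hL.good v hv).good_int.2.1 _ _
        h2.1 h2.2 hy.1 hy.2
    rw [psifin_integral276 L hL v hv _ hb, mul_one]
  · rw [stdFn_of_not_integral276 v y hy, zero_mul]

/-! ## The Weyl formula with the constant `Γ c⁻¹` -/

theorem fInf_good276 (L : WData K) (hL : L.IsGood) {g m : A0.G K} (h : Adm L.t L.n g m)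
    (ξ : A0.Adl K × A0.Adl K) (u : InfinitePlace K) :
    Continuous (fInf276 L g m ξ u) ∧ IntegrableL (L.μinf u) (fInf276 L g m ξ u) := by
  haveI := Fermat.Agent.LT.H11.SC.secondCountableTopology_infCompletion_h11 K u
  exact local_factor276 (hL.cpx u).ax _ _ (admL_inf276 L.t L.n u h) _

theorem fFin_good276 (L : WData K) (hL : L.IsGood) {g m : A0.G K} (h : Adm L.t L.n g m)
    (ξ : A0.Adl K × A0.Adl K) (v : HeightOneSpectrum (𝓞 K)) :
    Continuous (fFin276 L g m ξ v) ∧ IntegrableL (L.μfin v) (fFin276 L g m ξ v) := by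
  haveI := Fermat.Agent.LT.H11.SC.secondCountableTopology_adicCompletion_h11 K v
  exact local_factor276 (hL.fin v).ax _ _ (admL_fin276 L.t L.n v h) _

/-- the product of the local integrands is the global integrand -/
theorem prodFn_eq276 (L : WData K) (hL : L.IsGood) (hB : BorelOut L.toKData L.η)
    {g m : A0.G K} (h : Adm L.t L.n g m) (ξ y : A0.Adl K × A0.Adl K) :
    prodFn (fInf276 L g m ξ) (fFin276 L g m ξ) y = L.F g m y * L.ψ (bf L.t L.n ξ y) := by
  rw [psi_eq_prod276 L hL hB, psiProd276, F_apply276]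
  unfold prodFn
  have e1 : ∀ u : InfinitePlace K, fInf276 L g m ξ u (infVec u y)
      = L.Finf u (infMat u g) (infMat u m) (infVec u y)
        * L.ψinf u (projInf793 u (bf L.t L.n ξ y)) := by
    intro u
    rw [projInf_bf276]
    rfl
  have e2 : ∀ v : HeightOneSpectrum (𝓞 K), fFin276 L g m ξ v (finVec v y)
      = L.Ffin v (A0.finComp v g) (A0.finComp v m) (finVec v y)
        * L.ψfin v (projFin793 v (bf L.t L.n ξ y)) := by
    intro v
    rw [projFin_bf276]
    rfl
  rw [Finset.prod_congr rfl fun u _ => e1 u, finprod_congr e2, Finset.prod_mul_distrib,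
    finprod_mul_distrib
      (hasFiniteMulSupport_of_eventually276 (eventually_Ffin_apply_eq_one276 L hL h y))
      (hasFiniteMulSupport_of_eventually276 (eventually_psifin_eq_one276 L hL _))]
  ring

/-- almost all local integrals are `1` -/
theorem eventually_intL_eq_one276 (L : WData K) (hL : L.IsGood) {g m : A0.G K}
    (h : Adm L.t L.n g m) (ξ : A0.Adl K × A0.Adl K) :
    ∀ᶠ v : HeightOneSpectrum (𝓞 K) in Filter.cofinite,
      intL (L.μfin v) (fFin276 L g m ξ v) = 1 := by
  filter_upwards [eventually_fFin_eq_std276 L hL h ξ, eventually_not_dvd276 L.π.level_ne_bot]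
    with v h1 hv
  rw [h1]
  exact intL_stdFn276 v _ (hL.fin v).ax.haar.2.1 (hL.good v hv).meas_one

/-- **The Weyl formula with the constant `Γ c⁻¹`.** -/
theorem weyl_prod276 (L : WData K) (hL : L.IsGood) (hB : BorelOut L.toKData L.η)
    {w g m : A0.G K} (hw : IsWeyl w) (h : Adm L.t L.n g m) (ξ : A0.Adl K × A0.Adl K) :
    L.F (w * g) m ξ
      = Gam276 L * L.c⁻¹ * integral2 L.μ (fun y => L.F g m y * L.ψ (bf L.t L.n ξ y)) := by
  classical
  -- the product formula for the integrals
  have hS : ∃ S : Finset (HeightOneSpectrum (𝓞 K)), ∀ v, v ∉ S → fFin276 L g m ξ v = stdFn v := by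
    have hev := eventually_fFin_eq_std276 L hL h ξ
    rw [Filter.eventually_cofinite] at hev
    refine ⟨hev.toFinset, fun v hv => ?_⟩
    by_contra hne
    exact hv (hev.mem_toFinset.2 hne)
  obtain ⟨-, hval⟩ := hL.prod_int.2 (fInf276 L g m ξ) (fFin276 L g m ξ)
    (fun u => fInf_good276 L hL h ξ u) (fun v => fFin_good276 L hL h ξ v) hS
  have hfun : (fun y => L.F g m y * L.ψ (bf L.t L.n ξ y))
      = prodFn (fInf276 L g m ξ) (fFin276 L g m ξ) := by
    funext y
    exact (prodFn_eq276 L hL hB h ξ y).symm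
  rw [hfun, hval]
  -- the local Weyl formulas
  rw [F_apply276]
  have eu : ∀ u : InfinitePlace K,
      L.Finf u (infMat u (w * g)) (infMat u m) (infVec u ξ)
        = L.γinf u * intL (L.μinf u) (fInf276 L g m ξ u) := by
    intro u
    rw [infMat_mul276, infMat_weyl276 u hw,
      (hL.cpx u).ax.weyl _ _ _ (admL_inf276 L.t L.n u h)]
    rfl
  have ev : ∀ v : HeightOneSpectrum (𝓞 K),
      L.Ffin v (A0.finComp v (w * g)) (A0.finComp v m) (finVec v ξ)
        = L.γfin v * intL (L.μfin v) (fFin276 L g m ξ v) := by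
    intro v
    rw [finComp_mul276, finComp_weyl276 v hw,
      (hL.fin v).ax.weyl _ _ _ (admL_fin276 L.t L.n v h)]
    rfl
  rw [Finset.prod_congr rfl fun u _ => eu u, finprod_congr ev, Finset.prod_mul_distrib,
    finprod_mul_distrib
      (hasFiniteMulSupport_of_eventually276 (eventually_gamma_eq_one276 L hL))
      (hasFiniteMulSupport_of_eventually276 (eventually_intL_eq_one276 L hL h ξ)), Gam276]
  have hc : L.c ≠ 0 := hL.prod_int.1
  field_simp

end Fermat.Agent.LT.A2.H276

end
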