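import Fermat.Agent.LT.A2.H276.WeylElts

/-!
# Row LT, tower A2, leaf A2.03.1.4 `WX467.WeylC` (helper276), OFF-MAIN: `ψ = ∏ ψ_v`

* `F_apply276`, `eventually_Ffin_apply_eq_one276`: the product family at a vector, almost all
  factors are `1`;
* `F_one_ne_zero276`: `F 1 1 (1, 0) ≠ 0`;
* `psi_eq_prod276`: `ψ(x) = ∏_u ψ_u(x_u) ∏_v ψ_v(x_v)` for every adele `x`, from `BorelOut.unip`
  and the local axioms `LocAx.unip` at `g = m = 1`, `ξ = (1, 0)`.
-/

set_option autoImplicit false

open IsDedekindDomain NumberField AutomorphicForm MeasureTheory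
open scoped MatrixGroups Topology

noncomputable section

namespace Fermat.Agent.LT.A2.H276

open Fermat.Agent.LT.H130 Fermat.Agent.LT.H556 Fermat.Agent.LT.A2 Fermat.Agent.LT.A2.WX467
open Fermat.Agent.LT.T1.H793

/-! ## `finprod` helpers -/

theorem hasFiniteMulSupport_of_eventually276 {ι M : Type*} [One M] {f : ι → M}
    (h : ∀ᶠ i in Filter.cofinite, f i = 1) : Function.HasFiniteMulSupport f := by
  rw [Filter.eventually_cofinite] at h
  exact h

theorem finprod_ne_zero276 {ι : Type*} {f : ι → ℂ} (h : ∀ i, f i ≠ 0) : ∏ᶠ i, f i ≠ 0 := by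
  by_cases hf : Function.HasFiniteMulSupport f
  · rw [finprod_eq_prod f hf]
    exact Finset.prod_ne_zero_iff.2 fun i _ => h i
  · rw [finprod_of_infinite_mulSupport hf]
    exact one_ne_zero

variable {K : Type} [Field K] [NumberField K]

/-! ## The product family at a vector -/

theorem F_apply276 (L : WData K) (g m : A0.G K) (ξ : A0.Adl K × A0.Adl K) :
    L.F g m ξ = (∏ u : InfinitePlace K, L.Finf u (infMat u g) (infMat u m) (infVec u ξ)) *
      ∏ᶠ v : HeightOneSpectrum (𝓞 K),
        L.Ffin v (A0.finComp v g) (A0.finComp v m) (finVec v ξ) := rfl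

theorem stdFn_of_integral276 (v : HeightOneSpectrum (𝓞 K))
    (ξ : v.adicCompletion K × v.adicCompletion K)
    (h1 : ξ.1 ∈ v.adicCompletionIntegers K) (h2 : ξ.2 ∈ v.adicCompletionIntegers K) :
    stdFn v ξ = 1 := by
  unfold stdFn
  rw [if_pos ⟨h1, h2⟩]

theorem stdFn_of_not_integral276 (v : HeightOneSpectrum (𝓞 K))
    (ξ : v.adicCompletion K × v.adicCompletion K)
    (h : ¬ (ξ.1 ∈ v.adicCompletionIntegers K ∧ ξ.2 ∈ v.adicCompletionIntegers K)) :
    stdFn v ξ = 0 := by
  unfold stdFn
  rw [if_neg h]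

theorem eventually_finVec_integral276 (ξ : A0.Adl K × A0.Adl K) :
    ∀ᶠ v : HeightOneSpectrum (𝓞 K) in Filter.cofinite,
      (finVec v ξ).1 ∈ v.adicCompletionIntegers K ∧
        (finVec v ξ).2 ∈ v.adicCompletionIntegers K := by
  filter_upwards [eventually_integral276 ξ.1, eventually_integral276 ξ.2] with v h1 h2
  exact ⟨h1, h2⟩

/-- almost all factors of the product family are `1` -/
theorem eventually_Ffin_apply_eq_one276 (L : WData K) (hL : L.IsGood) {g m : A0.G K}
    (h : Adm L.t L.n g m) (ξ : A0.Adl K × A0.Adl K) :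
    ∀ᶠ v : HeightOneSpectrum (𝓞 K) in Filter.cofinite,
      L.Ffin v (A0.finComp v g) (A0.finComp v m) (finVec v ξ) = 1 := by
  filter_upwards [eventually_Ffin_eq_std276 L hL h, eventually_finVec_integral276 ξ]
    with v h1 h2
  rw [h1]
  exact stdFn_of_integral276 v _ h2.1 h2.2

/-- almost all local characters are `1` at an adele -/
theorem eventually_psifin_eq_one276 (L : WData K) (hL : L.IsGood) (x : A0.Adl K) :
    ∀ᶠ v : HeightOneSpectrum (𝓞 K) in Filter.cofinite, L.ψfin v (projFin793 v x) = 1 := by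
  filter_upwards [eventually_not_dvd276 L.π.level_ne_bot, eventually_integral276 x]
    with v hv hx
  exact psifin_integral276 L hL v hv _ hx

/-! ## Non-vanishing of the initial vector at `(1, 0)` -/

theorem Finf_one_ne_zero276 (L : WData K) (hL : L.IsGood) (u : InfinitePlace K)
    (ξ : u.Completion × u.Completion) : L.Finf u 1 1 ξ ≠ 0 := by
  obtain ⟨c, -, -, hg⟩ := (hL.cpx u).gauss
  obtain ⟨s, hs⟩ := IsAlgClosed.exists_eq_mul_self
    ((u.embedding L.t) ^ 2 - 4 * u.embedding L.n)
  have h := hg ((u.embedding L.t + s) / 2) ((u.embedding L.t - s) / 2) (by ring)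
    (by
      have : (u.embedding L.t + s) / 2 * ((u.embedding L.t - s) / 2)
          = ((u.embedding L.t) ^ 2 - s * s) / 4 := by ring
      rw [this, ← hs]; ring) ξ
  rw [h]
  exact Complex.exp_ne_zero _

theorem F_one_ne_zero276 (L : WData K) (hL : L.IsGood) (ξ : A0.Adl K × A0.Adl K)
    (hξ : ∀ v : HeightOneSpectrum (𝓞 K), finVec v ξ = (1, 0)) : L.F 1 1 ξ ≠ 0 := by
  rw [F_apply276]
  refine mul_ne_zero (Finset.prod_ne_zero_iff.2 fun u _ => ?_) (finprod_ne_zero276 fun v => ?_)
  · rw [infMat_one276]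
    exact Finf_one_ne_zero276 L hL u _
  · rw [finComp_one276, hξ v]
    exact (hL.fin v).pos.2

/-! ## The quadratic form in components -/

theorem infVec_eq276 (u : InfinitePlace K) (ξ : A0.Adl K × A0.Adl K) :
    infVec u ξ = (projInf793 u ξ.1, projInf793 u ξ.2) := rfl

theorem finVec_eq276 (v : HeightOneSpectrum (𝓞 K)) (ξ : A0.Adl K × A0.Adl K) :
    finVec v ξ = (projFin793 v ξ.1, projFin793 v ξ.2) := rfl

theorem projInf_qf276 (t n : K) (u : InfinitePlace K) (ξ : A0.Adl K × A0.Adl K) :
    projInf793 u (qf t n ξ)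
      = qfL (algebraMap K u.Completion t) (algebraMap K u.Completion n) (infVec u ξ) := by
  unfold qf qfL
  rw [map_add, map_add, map_mul, map_mul, map_mul, map_pow, map_pow]
  rfl

theorem projFin_qf276 (t n : K) (v : HeightOneSpectrum (𝓞 K)) (ξ : A0.Adl K × A0.Adl K) :
    projFin793 v (qf t n ξ)
      = qfL (algebraMap K (v.adicCompletion K) t) (algebraMap K (v.adicCompletion K) n)
          (finVec v ξ) := by
  unfold qf qfL
  rw [map_add, map_add, map_mul, map_mul, map_mul, map_pow, map_pow]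
  rfl

theorem projInf_bf276 (t n : K) (u : InfinitePlace K) (ξ y : A0.Adl K × A0.Adl K) :
    projInf793 u (bf t n ξ y)
      = bfL (algebraMap K u.Completion t) (algebraMap K u.Completion n) (infVec u ξ)
          (infVec u y) := by
  unfold bf bfL
  rw [map_sub, map_sub, projInf_qf276, projInf_qf276, projInf_qf276]
  rfl

theorem projFin_bf276 (t n : K) (v : HeightOneSpectrum (𝓞 K)) (ξ y : A0.Adl K × A0.Adl K) :
    projFin793 v (bf t n ξ y)
      = bfL (algebraMap K (v.adicCompletion K) t) (algebraMap K (v.adicCompletion K) n)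
          (finVec v ξ) (finVec v y) := by
  unfold bf bfL
  rw [map_sub, map_sub, projFin_qf276, projFin_qf276, projFin_qf276]
  rfl

/-! ## `ψ = ∏ ψ_v` -/

/-- the product of the local characters -/
def psiProd276 (L : WData K) (x : A0.Adl K) : ℂ :=
  (∏ u : InfinitePlace K, L.ψinf u (projInf793 u x)) *
    ∏ᶠ v : HeightOneSpectrum (𝓞 K), L.ψfin v (projFin793 v x)

/-- the base vector `(1, 0)` -/
def e1_276 : A0.Adl K × A0.Adl K := (1, 0)

theorem qf_e1_276 (t n : K) : qf t n (e1_276 (K := K)) = 1 := by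
  unfold qf e1_276
  simp

theorem qfL_e1_276 {k : Type} [Field k] (t n : k) : qfL t n ((1 : k), (0 : k)) = 1 := by
  unfold qfL
  simp

theorem infVec_e1_276 (u : InfinitePlace K) : infVec u (e1_276 (K := K)) = (1, 0) := rfl

theorem finVec_e1_276 (v : HeightOneSpectrum (𝓞 K)) : finVec v (e1_276 (K := K)) = (1, 0) :=
  rfl

theorem psi_eq_prod276 (L : WData K) (hL : L.IsGood) (hB : BorelOut L.toKData L.η)
    (x : A0.Adl K) : L.ψ x = psiProd276 L x := by
  have hadm : Adm L.t L.n (1 : A0.G K) 1 := adm_one276 L.t L.n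
  have h1 := hB.unip nU276 isUpperUnip_nU276 x 1 1 e1_276 hadm
  have h0 : L.F 1 1 e1_276 ≠ 0 := F_one_ne_zero276 L hL e1_276 finVec_e1_276
  -- the local computation
  have h2 : L.F (nU276 x * 1) 1 e1_276 = psiProd276 L x * L.F 1 1 e1_276 := by
    rw [F_apply276, F_apply276, psiProd276]
    have hu : ∀ u : InfinitePlace K,
        L.Finf u (infMat u (nU276 x * 1)) (infMat u 1) (infVec u e1_276)
          = L.ψinf u (projInf793 u x) * L.Finf u (infMat u 1) (infMat u 1) (infVec u e1_276) := by
      intro u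
      rw [infMat_mul276, infMat_unip276 u isUpperUnip_nU276,
        (hL.cpx u).ax.unip _ _ _ _ (admL_inf276 L.t L.n u hadm), infVec_e1_276]
      congr 2
      rw [qfL_e1_276, mul_one]
    have hv : ∀ v : HeightOneSpectrum (𝓞 K),
        L.Ffin v (A0.finComp v (nU276 x * 1)) (A0.finComp v 1) (finVec v e1_276)
          = L.ψfin v (projFin793 v x)
            * L.Ffin v (A0.finComp v 1) (A0.finComp v 1) (finVec v e1_276) := by
      intro v
      rw [finComp_mul276, finComp_unip276 v isUpperUnip_nU276,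
        (hL.fin v).ax.unip _ _ _ _ (admL_fin276 L.t L.n v hadm), finVec_e1_276]
      congr 2
      rw [qfL_e1_276, mul_one]
    rw [Finset.prod_congr rfl fun u _ => hu u, finprod_congr hv, Finset.prod_mul_distrib,
      finprod_mul_distrib
        (hasFiniteMulSupport_of_eventually276 (eventually_psifin_eq_one276 L hL x))
        (hasFiniteMulSupport_of_eventually276
          (eventually_Ffin_apply_eq_one276 L hL hadm e1_276))]
    ring
  have h3 : L.ψ (x * qf L.t L.n e1_276) * L.F 1 1 e1_276 = psiProd276 L x * L.F 1 1 e1_276 :=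
    h1.symm.trans h2
  rw [qf_e1_276, mul_one] at h3
  exact mul_right_cancel₀ h0 h3

end Fermat.Agent.LT.A2.H276

end
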