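import Fermat.Agent.LT.A2.H276.WeylProd

/-!
# Row LT, tower A2, leaf A2.03.1.4 `WX467.WeylC` (helper276), OFF-MAIN: `Γ = c` and reciprocity

`Θ(g) = ∑_{ξ ∈ K²} F g 1 ξ` for `det g = 1`:
`Θ(n(b) g) = Θ(g)` (`b ∈ K`), `Θ(t(a) g) = η(a) Θ(g)` (`a ∈ K^×`), `Θ(w g) = Γ c⁻¹ Θ(g)`
(Poisson), `Θ(1) ≠ 0`; the relations `(w n(1))³ = 1`, `w⁴ = 1`,
`w n(a) w = t(-a⁻¹) n(-a) w n(-a⁻¹)` give `Γ c⁻¹ = 1` and `η = 1` on `K^×`.
-/

set_option autoImplicit false

open IsDedekindDomain NumberField AutomorphicForm MeasureTheory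
open scoped MatrixGroups Topology

noncomputable section

namespace Fermat.Agent.LT.A2.H276

open Fermat.Agent.LT.H130 Fermat.Agent.LT.H556 Fermat.Agent.LT.A2 Fermat.Agent.LT.A2.WX467
open Fermat.Agent.LT.T1.H793

variable {K : Type} [Field K] [NumberField K]

/-! ## Admissibility of `(g, 1)`, `det g = 1` -/

theorem adm_of_det_one276 (t n : K) {g : A0.G K} (hg : Matrix.GeneralLinearGroup.det g = 1) :
    Adm t n g 1 :=
  ⟨inTorus_one276 t n, by rw [hg, map_one]⟩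

theorem det_mul_one276 {s g : A0.G K} (hs : Matrix.GeneralLinearGroup.det s = 1)
    (hg : Matrix.GeneralLinearGroup.det g = 1) : Matrix.GeneralLinearGroup.det (s * g) = 1 := by
  rw [map_mul, hs, hg, one_mul]

theorem det_wE276 : Matrix.GeneralLinearGroup.det (wE276 (K := K)) = 1 := det_weyl276 isWeyl_wE276

theorem det_nU276 (x : A0.Adl K) : Matrix.GeneralLinearGroup.det (nU276 x) = 1 :=
  det_unip276 isUpperUnip_nU276 x

theorem det_tA276 (a : (A0.Adl K)ˣ) : Matrix.GeneralLinearGroup.det (tA276 a) = 1 :=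
  det_diagSLA276 (isDiagSLA_tA276 a)

/-! ## The theta function -/

/-- `Θ(g) = ∑_{ξ ∈ K²} F g 1 ξ` -/
def theta276 (L : WData K) (g : A0.G K) : ℂ := ∑' ξ : K × K, L.F g 1 (ratV ξ)

theorem summable_theta276 (L : WData K) (hreg : L.toKData.IsRegular) {g : A0.G K}
    (hg : Matrix.GeneralLinearGroup.det g = 1) :
    Summable (fun ξ : K × K => L.F g 1 (ratV ξ)) := by
  obtain ⟨b, hb, hbound⟩ := hreg.loc_summable {((g, 1) : A0.G K × A0.G K)} isCompact_singleton
  exact Summable.of_norm_bounded hb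
    (fun ξ => hbound ξ (g, 1) rfl (adm_of_det_one276 L.t L.n hg))

theorem qf_ratV276 (t n : K) (ξ : K × K) :
    qf t n (ratV ξ) = algebraMap K (A0.Adl K) (ξ.1 ^ 2 + t * ξ.1 * ξ.2 + n * ξ.2 ^ 2) := by
  unfold qf ratV
  simp only [map_add, map_mul, map_pow]

/-- `Θ(n(b) g) = Θ(g)`, `b ∈ K` -/
theorem theta_unip276 (L : WData K) (hL : L.IsGood) (hB : BorelOut L.toKData L.η) (b : K)
    {g : A0.G K} (hg : Matrix.GeneralLinearGroup.det g = 1) :
    theta276 L (nU276 (algebraMap K (A0.Adl K) b) * g) = theta276 L g := by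
  unfold theta276
  congr 1
  funext ξ
  have h := hB.unip nU276 isUpperUnip_nU276 (algebraMap K (A0.Adl K) b) g 1 (ratV ξ)
    (adm_of_det_one276 L.t L.n hg)
  have h2 : L.ψ (algebraMap K (A0.Adl K) b * qf L.t L.n (ratV ξ)) = 1 := by
    rw [qf_ratV276, ← map_mul]
    exact hL.char.triv _
  have h3 : L.F (nU276 (algebraMap K (A0.Adl K) b) * g) 1 (ratV ξ)
      = L.ψ (algebraMap K (A0.Adl K) b * qf L.t L.n (ratV ξ)) * L.F g 1 (ratV ξ) := h
  rw [h3, h2, one_mul]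

theorem smul_ratV276 (x : Kˣ) (ξ : K × K) :
    ((T1.ratUnit K x : (A0.Adl K)ˣ) : A0.Adl K) • ratV ξ = ratV (x • ξ) := by
  unfold ratV
  refine Prod.ext ?_ ?_
  · show ((T1.ratUnit K x : (A0.Adl K)ˣ) : A0.Adl K) * algebraMap K (A0.Adl K) ξ.1
      = algebraMap K (A0.Adl K) ((x : K) * ξ.1)
    rw [map_mul]
    rfl
  · show ((T1.ratUnit K x : (A0.Adl K)ˣ) : A0.Adl K) * algebraMap K (A0.Adl K) ξ.2
      = algebraMap K (A0.Adl K) ((x : K) * ξ.2)
    rw [map_mul]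
    rfl

/-- `Θ(t(a) g) = η(a) Θ(g)`, `a ∈ K^×` -/
theorem theta_diag276 (L : WData K) (hT1 : T1.T1Out K) (hB : BorelOut L.toKData L.η) (x : Kˣ)
    {g : A0.G K} (hg : Matrix.GeneralLinearGroup.det g = 1) :
    theta276 L (tA276 (T1.ratUnit K x) * g) = L.η (T1.ratUnit K x) * theta276 L g := by
  unfold theta276
  have hterm : ∀ ξ : K × K, L.F (tA276 (T1.ratUnit K x) * g) 1 (ratV ξ)
      = L.η (T1.ratUnit K x) * L.F g 1 (ratV (x • ξ)) := by
    intro ξ
    have h := hB.diagA (tA276 (T1.ratUnit K x)) (T1.ratUnit K x) (isDiagSLA_tA276 _) g 1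
      (ratV ξ) (adm_of_det_one276 L.t L.n hg)
    have h2 : L.F (tA276 (T1.ratUnit K x) * g) 1 (ratV ξ)
        = L.η (T1.ratUnit K x) * ((T1.adNorm K (T1.ratUnit K x : A0.Adl K) : ℝ) : ℂ)
          * L.F g 1 (((T1.ratUnit K x : (A0.Adl K)ˣ) : A0.Adl K) • ratV ξ) := h
    rw [h2, hT1.adNorm.2.2.1 x, smul_ratV276]
    simp
  rw [tsum_congr hterm, tsum_mul_left]
  congr 1
  exact (MulAction.toPerm x : Equiv.Perm (K × K)).tsum_eq (fun ξ => L.F g 1 (ratV ξ))

/-! ## The Weyl element: Poisson summation -/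

theorem Gam_ne_zero276 (L : WData K) (hL : L.IsGood) (hB : BorelOut L.toKData L.η) :
    Gam276 L ≠ 0 := by
  intro h0
  have hdet : Matrix.GeneralLinearGroup.det (wE276 (K := K))⁻¹ = 1 := by
    rw [map_inv, det_wE276, inv_one]
  have h := weyl_prod276 L hL hB (isWeyl_wE276 (K := K)) (adm_of_det_one276 L.t L.n hdet)
    e1_276
  rw [mul_inv_cancel, h0, zero_mul, zero_mul] at h
  exact F_one_ne_zero276 L hL e1_276 finVec_e1_276 h

theorem disc_ne_zero276 (t n : K) (h : ∀ x : K, x ^ 2 - t * x + n ≠ 0) : t ^ 2 - 4 * n ≠ 0 := by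
  intro h0
  apply h (t / 2)
  have : (t / 2) ^ 2 - t * (t / 2) + n = -(t ^ 2 - 4 * n) / 4 := by ring
  rw [this, h0]
  simp

/-- `Θ(w g) = Γ c⁻¹ Θ(g)` -/
theorem theta_weyl276 (hP : Poisson2C) (L : WData K) (hL : L.IsGood)
    (hB : BorelOut L.toKData L.η) (hreg : L.toKData.IsRegular) {g : A0.G K}
    (hg : Matrix.GeneralLinearGroup.det g = 1) :
    theta276 L (wE276 * g) = Gam276 L * L.c⁻¹ * theta276 L g := by
  have hadm := adm_of_det_one276 L.t L.n hg
  have hρ : Gam276 L * L.c⁻¹ ≠ 0 :=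
    mul_ne_zero (Gam_ne_zero276 L hL hB) (inv_ne_zero hL.prod_int.1)
  have hw : ∀ ξ : K × K, L.F (wE276 * g) 1 (ratV ξ)
      = Gam276 L * L.c⁻¹
        * integral2 L.μ (fun y => L.F g 1 y * L.ψ (bf L.t L.n (ratV ξ) y)) :=
    fun ξ => weyl_prod276 L hL hB isWeyl_wE276 hadm (ratV ξ)
  have hsum : Summable fun ξ : K × K =>
      ‖integral2 L.μ (fun y => L.F g 1 y * L.ψ (bf L.t L.n (ratV ξ) y))‖ := by
    have h1 := (summable_theta276 L hreg (det_mul_one276 det_wE276 hg)).norm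
    have h2 := h1.mul_left ‖(Gam276 L * L.c⁻¹)⁻¹‖
    refine h2.congr fun ξ => ?_
    rw [hw ξ, ← norm_mul, ← mul_assoc, inv_mul_cancel₀ hρ, one_mul]
  have hpo := hP K L.t L.n (disc_ne_zero276 L.t L.n hL.torus.irred) L.ψ hL.char L.μ
    hL.measured.covol (L.F g 1) (hreg.cont g 1 hadm) (hreg.integrable g 1 hadm)
    (hreg.shift_summable g 1 hadm) hsum
  unfold theta276
  rw [tsum_congr hw, tsum_mul_left, hpo]

/-! ## `Θ(1) ≠ 0` -/

/-- a complex number which is a nonnegative real -/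
def IsNN276 (z : ℂ) : Prop := 0 ≤ z.re ∧ z.im = 0

theorem IsNN276.mul {z w : ℂ} (hz : IsNN276 z) (hw : IsNN276 w) : IsNN276 (z * w) := by
  refine ⟨?_, ?_⟩
  · rw [Complex.mul_re, hz.2, zero_mul, sub_zero]
    exact mul_nonneg hz.1 hw.1
  · rw [Complex.mul_im, hz.2, hw.2, mul_zero, zero_mul, add_zero]

theorem isNN_one276 : IsNN276 1 := ⟨by simp, by simp⟩

theorem isNN_prod276 {ι : Type*} (s : Finset ι) (f : ι → ℂ) (h : ∀ i ∈ s, IsNN276 (f i)) :
    IsNN276 (∏ i ∈ s, f i) := by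
  classical
  induction s using Finset.induction_on with
  | empty => simpa using isNN_one276
  | insert a s ha ih =>
    rw [Finset.prod_insert ha]
    exact (h a (Finset.mem_insert_self a s)).mul
      (ih fun i hi => h i (Finset.mem_insert_of_mem hi))

theorem isNN_finprod276 {ι : Type*} (f : ι → ℂ) (h : ∀ i, IsNN276 (f i)) :
    IsNN276 (∏ᶠ i, f i) := by
  by_cases hf : Function.HasFiniteMulSupport f
  · rw [finprod_eq_prod f hf]
    exact isNN_prod276 _ f fun i _ => h i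
  · rw [finprod_of_infinite_mulSupport hf]
    exact isNN_one276

theorem isNN_exp276 (r : ℝ) : IsNN276 (Complex.exp ((r : ℝ) : ℂ)) := by
  rw [← Complex.ofReal_exp]
  exact ⟨by rw [Complex.ofReal_re]; exact (Real.exp_pos r).le, Complex.ofReal_im _⟩

theorem isNN_Finf276 (L : WData K) (hL : L.IsGood) (u : InfinitePlace K)
    (ξ : u.Completion × u.Completion) : IsNN276 (L.Finf u 1 1 ξ) := by
  obtain ⟨c, -, -, hg⟩ := (hL.cpx u).gauss
  obtain ⟨s, hs⟩ := IsAlgClosed.exists_eq_mul_self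
    ((u.embedding L.t) ^ 2 - 4 * u.embedding L.n)
  have h := hg ((u.embedding L.t + s) / 2) ((u.embedding L.t - s) / 2) (by ring)
    (by
      have : (u.embedding L.t + s) / 2 * ((u.embedding L.t - s) / 2)
          = ((u.embedding L.t) ^ 2 - s * s) / 4 := by ring
      rw [this, ← hs]; ring) ξ
  rw [h]
  unfold gaussL
  rw [← Complex.ofReal_neg]
  exact isNN_exp276 _

theorem isNN_F276 (L : WData K) (hL : L.IsGood) (ξ : A0.Adl K × A0.Adl K) :
    IsNN276 (L.F 1 1 ξ) := by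
  rw [F_apply276]
  refine (isNN_prod276 _ _ fun u _ => ?_).mul (isNN_finprod276 _ fun v => ?_)
  · rw [infMat_one276]
    exact isNN_Finf276 L hL u _
  · rw [finComp_one276]
    exact (hL.fin v).pos.1 _

theorem ratV_e1_276 : ratV ((1 : K), (0 : K)) = e1_276 (K := K) := by
  unfold ratV e1_276
  rw [map_one, map_zero]

theorem theta_one_ne_zero276 (L : WData K) (hL : L.IsGood) (hreg : L.toKData.IsRegular) :
    theta276 L 1 ≠ 0 := by
  have hsum := summable_theta276 L hreg (map_one (Matrix.GeneralLinearGroup.det) :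
    Matrix.GeneralLinearGroup.det (1 : A0.G K) = 1)
  have hre : Summable fun ξ : K × K => (L.F 1 1 (ratV ξ)).re :=
    (Complex.hasSum_re hsum.hasSum).summable
  have h1 : (theta276 L 1).re = ∑' ξ : K × K, (L.F 1 1 (ratV ξ)).re :=
    Complex.re_tsum hsum
  have h2 : (L.F 1 1 (ratV ((1 : K), (0 : K)))).re ≤ ∑' ξ : K × K, (L.F 1 1 (ratV ξ)).re :=
    hre.le_tsum _ fun ξ _ => (isNN_F276 L hL (ratV ξ)).1
  have h3 : 0 < (L.F 1 1 (ratV ((1 : K), (0 : K)))).re := by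
    have hnn := isNN_F276 L hL (ratV ((1 : K), (0 : K)))
    refine lt_of_le_of_ne hnn.1 fun h0 => ?_
    have hne := F_one_ne_zero276 L hL e1_276 finVec_e1_276
    rw [← ratV_e1_276] at hne
    exact hne (Complex.ext h0.symm hnn.2)
  intro h0
  rw [h0] at h1
  have : (0 : ℝ) < 0 := by
    calc (0 : ℝ) < (L.F 1 1 (ratV ((1 : K), (0 : K)))).re := h3
      _ ≤ ∑' ξ : K × K, (L.F 1 1 (ratV ξ)).re := h2
      _ = 0 := by rw [← h1]; rfl
  exact lt_irrefl _ this

end Fermat.Agent.LT.A2.H276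

end
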